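import Fermat.Agent.S48.H856.IgusaConc

/-!
# S48 / Tower A1 / A1-RED, leaf R4b3 (BD-SHIFT), generic part (helper141)

The substitution `τ ↦ dτ` on helper828's rings of level-`M` modular functions which are
`E`-rational at all cusps.  Let `d > 0`, `M * d ∣ N`, and let `ζ ∈ Eˣ` map to `exp(2πi/N)`.

* `shiftFun d f := fun τ => f (dτ)`;
* `shiftFun_mem_iactRing` : `f ∈ iactRing ι M → shiftFun d f ∈ iactRing ι N`
  (Hermite normal form `diag(d,1)·γ = γ'·[[a,b],[0,d']]` + substitution in expansions);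
* `iactShift : iactRing ι M →+* iactRing ι N`, `iactShiftField : IActField ι M →+* IActField ι N`,
  with `iactFieldExp ι N (iactShiftField x) = qExpand E e (iactFieldExp ι M x)`, `e * M = d * N`
  (`d = 1`: raising the level `M ∣ N`; `d = a`, `N = M * a`: the `V_a`-generators of `F1p M a`);
* `exists_iactFieldExp_smul_shift` : every `SL(2,ℤ)`-translate of `iactShiftField x` has the
  expansion `(γ'' • x)(ζ^k · X^e)` for a suitable translate `γ'' • x` of `x`;
* `isBd_smul_iactShiftField`, `iactShiftField_mem_iactBd` : if all translates of `x` have bounded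
  denominators (resp. `x ∈ H856.iactBd` at level `M`), the same holds for `iactShiftField x` at
  level `N`;
* `smul_iactShiftField_of_rel` : `γ • iactShiftField x = iactShiftField (γ' • x)` when
  `γ' = diag(d,1) γ diag(d,1)⁻¹` (compatibility with the diamonds).
-/

set_option autoImplicit false
set_option linter.unusedSectionVars false
set_option linter.style.haveILetI false

noncomputable section

open ModularCurve HahnSeries UpperHalfPlane
open scoped MatrixGroups Manifold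

namespace Fermat.Agent.S48.H141

open Fermat.Agent.S24 Fermat.Agent.S24.H997 Fermat.Agent.S24.H624 Fermat.Agent.S20.L1
open Fermat.Agent.S48.H828 Fermat.Agent.S48.H856

/-- `τ ↦ f(dτ)` -/
def shiftFun (d : ℕ) (f : ℍ → ℂ) : ℍ → ℂ := fun τ => f (infAff d 0 1 τ)

@[simp] theorem shiftFun_apply (d : ℕ) (f : ℍ → ℂ) (τ : ℍ) :
    shiftFun d f τ = f (infAff d 0 1 τ) := rfl

theorem mdiff_shiftFun {d : ℕ} (hd : 0 < d) {f : ℍ → ℂ} (hf : MDiff f) :
    MDiff (shiftFun d f) := by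
  rw [UpperHalfPlane.mdifferentiable_iff]
  have hj : DifferentiableOn ℂ (f ∘ ofComplex) {z : ℂ | 0 < z.im} :=
    UpperHalfPlane.mdifferentiable_iff.mp hf
  have hmul : DifferentiableOn ℂ (fun z : ℂ => (d : ℂ) * z) {z : ℂ | 0 < z.im} :=
    (differentiable_id.const_mul (d : ℂ)).differentiableOn
  have hmaps : Set.MapsTo (fun z : ℂ => (d : ℂ) * z) {z : ℂ | 0 < z.im} {z : ℂ | 0 < z.im} := by
    intro z hz
    simp only [Set.mem_ofPred_eq] at hz ⊢
    have : ((d : ℂ) * z).im = d * z.im := by simp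
    rw [this]
    have hd' : (0 : ℝ) < d := by exact_mod_cast hd
    positivity
  refine (hj.comp hmul hmaps).congr ?_
  intro z hz
  simp only [Set.mem_ofPred_eq] at hz
  simp only [Function.comp_apply, shiftFun]
  congr 1
  apply UpperHalfPlane.ext
  rw [infAff_coe hd one_pos, ofComplex_apply_of_im_pos hz]
  have hz' : 0 < ((d : ℂ) * z).im := hmaps hz
  rw [ofComplex_apply_of_im_pos hz']
  simp

theorem sl_inv_00 (γ : SL(2, ℤ)) : (γ⁻¹) 0 0 = γ 1 1 := by
  rw [Matrix.SpecialLinearGroup.SL2_inv_expl]; rfl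

theorem sl_inv_01 (γ : SL(2, ℤ)) : (γ⁻¹) 0 1 = -γ 0 1 := by
  rw [Matrix.SpecialLinearGroup.SL2_inv_expl]; rfl

theorem sl_inv_10 (γ : SL(2, ℤ)) : (γ⁻¹) 1 0 = -γ 1 0 := by
  rw [Matrix.SpecialLinearGroup.SL2_inv_expl]; rfl

theorem sl_inv_11 (γ : SL(2, ℤ)) : (γ⁻¹) 1 1 = γ 0 0 := by
  rw [Matrix.SpecialLinearGroup.SL2_inv_expl]; rfl

/-- compatibility of the shift with `γ' = diag(d,1) γ diag(d,1)⁻¹` -/
theorem compSL_shiftFun_of_rel {d : ℕ} (hd : 0 < d) (γ γ' : SL(2, ℤ))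
    (h00 : γ' 0 0 = γ 0 0) (h01 : γ' 0 1 = d * γ 0 1) (h10 : γ 1 0 = γ' 1 0 * d)
    (h11 : γ' 1 1 = γ 1 1) (f : ℍ → ℂ) :
    compSL γ (shiftFun d f) = shiftFun d (compSL γ' f) := by
  funext τ
  show f (infAff d 0 1 (γ • τ)) = f (γ' • infAff d 0 1 τ)
  rw [inf_aff_smul_eq hd hd one_pos γ γ' (b := 0) (by rw [h00]; ring)
    (by rw [h01]; push_cast; ring) h10 (by rw [h11]; push_cast; ring) τ]

/-- `Γ(N)`-invariance of the shift of a `Γ(M)`-invariant function, `M * d ∣ N` -/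
theorem compSL_shiftFun_of_mem_Gamma {M N d : ℕ} (hd : 0 < d) (hdvd : M * d ∣ N) {f : ℍ → ℂ}
    (hf : ∀ γ ∈ CongruenceSubgroup.Gamma M, compSL γ f = f) (γ : SL(2, ℤ))
    (hγ : γ ∈ CongruenceSubgroup.Gamma N) : compSL γ (shiftFun d f) = shiftFun d f := by
  rw [CongruenceSubgroup.Gamma_mem] at hγ
  obtain ⟨g00, g01, g10, g11⟩ := hγ
  obtain ⟨c, hc⟩ := hdvd
  have hMN : (M : ℤ) ∣ (N : ℤ) := ⟨(d : ℤ) * c, by rw [hc]; push_cast; ring⟩
  have hN10 : (N : ℤ) ∣ γ 1 0 := (ZMod.intCast_zmod_eq_zero_iff_dvd _ _).mp g10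
  have hN01 : (N : ℤ) ∣ γ 0 1 := (ZMod.intCast_zmod_eq_zero_iff_dvd _ _).mp g01
  have hN00 : (N : ℤ) ∣ γ 0 0 - 1 := by
    have : ((γ 0 0 - 1 : ℤ) : ZMod N) = 0 := by push_cast; rw [g00]; ring
    exact (ZMod.intCast_zmod_eq_zero_iff_dvd _ _).mp this
  have hN11 : (N : ℤ) ∣ γ 1 1 - 1 := by
    have : ((γ 1 1 - 1 : ℤ) : ZMod N) = 0 := by push_cast; rw [g11]; ring
    exact (ZMod.intCast_zmod_eq_zero_iff_dvd _ _).mp this
  obtain ⟨k, hk⟩ := hN10
  have hr : γ 1 0 = ((M : ℤ) * c * k) * d := by rw [hk, hc]; push_cast; ring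
  have hdet := inf_sl_det γ
  let γ' : SL(2, ℤ) := ⟨!![γ 0 0, (d : ℤ) * γ 0 1; (M : ℤ) * c * k, γ 1 1], by
    rw [Matrix.det_fin_two_of]
    rw [hr] at hdet
    linear_combination hdet⟩
  have e00 : γ' 0 0 = γ 0 0 := rfl
  have e01 : γ' 0 1 = (d : ℤ) * γ 0 1 := rfl
  have e10 : γ' 1 0 = (M : ℤ) * c * k := rfl
  have e11 : γ' 1 1 = γ 1 1 := rfl
  have hγ' : γ' ∈ CongruenceSubgroup.Gamma M := by
    rw [CongruenceSubgroup.Gamma_mem, e00, e01, e10, e11]
    refine ⟨?_, ?_, ?_, ?_⟩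
    · have : ((γ 0 0 - 1 : ℤ) : ZMod M) = 0 :=
        (ZMod.intCast_zmod_eq_zero_iff_dvd _ _).mpr (hMN.trans hN00)
      push_cast at this
      exact sub_eq_zero.mp this
    · exact (ZMod.intCast_zmod_eq_zero_iff_dvd _ _).mpr
        (Dvd.dvd.mul_left (hMN.trans hN01) _)
    · exact (ZMod.intCast_zmod_eq_zero_iff_dvd _ _).mpr ⟨(c : ℤ) * k, by ring⟩
    · have : ((γ 1 1 - 1 : ℤ) : ZMod M) = 0 :=
        (ZMod.intCast_zmod_eq_zero_iff_dvd _ _).mpr (hMN.trans hN11)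
      push_cast at this
      exact sub_eq_zero.mp this
  rw [compSL_shiftFun_of_rel hd γ γ' e00 e01 (by rw [e10]; exact hr) e11, hf γ' hγ']

section Exp

variable {E : Type*} [Field E] [CharZero E] {ι : E →+* ℂ} {M N : ℕ} [NeZero M] [NeZero N]

/-- **Translates of a shift** (Hermite normal form): for every `γ` there are `γ'`, `e`, `k` such
that, for every `f`, the translate `(shiftFun d f) ∘ γ` has the expansion `φ(ζ^k · X^e)` whenever
`f ∘ γ'` has the expansion `φ`. -/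
theorem exists_infExp_compSL_shiftFun (ζ : Eˣ) (hζ : Units.map (ι : E →* ℂ) ζ = infRoot 1 N)
    {d : ℕ} (hd : 0 < d) (hdvd : M * d ∣ N) (γ : SL(2, ℤ)) :
    ∃ (γ' : SL(2, ℤ)) (e : ℕ) (_ : NeZero e) (k : ℤ), ∀ (f : ℍ → ℂ) (φ : LaurentSeries E),
      InfExp M (compSL γ' f) (coeffMap ι φ) →
        InfExp N (compSL γ (shiftFun d f)) (coeffMap ι (qExpand E e (infTwist (ζ ^ k) φ))) := by
  have hM : 0 < M := Nat.pos_of_ne_zero (NeZero.ne M)
  have hN : 0 < N := Nat.pos_of_ne_zero (NeZero.ne N)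
  obtain ⟨γ', a, d', b, ha, hd', had, h00, h01, h10, h11⟩ := inf_exists_hnf d hd γ
  obtain ⟨c, hc⟩ := hdvd
  have hc0 : 0 < c := by
    rcases Nat.eq_zero_or_pos c with h | h
    · rw [h, mul_zero] at hc; omega
    · exact h
  have he0 : 0 < a * a * c := Nat.mul_pos (Nat.mul_pos ha ha) hc0
  have hac0 : 0 < a * c := Nat.mul_pos ha hc0
  refine ⟨γ', a * a * c, ⟨he0.ne'⟩, b * ((a * c : ℕ) : ℤ), fun f φ hφ => ?_⟩
  haveI : NeZero (a * a * c) := ⟨he0.ne'⟩
  have he : a * a * c * (d' * M) = a * N := by rw [hc, ← had]; ring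
  have h := hφ.comp_infAff (e := a * a * c) (N := N) b ha hd' hM hN he
  have hroot : Units.map (ι : E →* ℂ) (ζ ^ (b * ((a * c : ℕ) : ℤ))) = infRoot b (d' * M) := by
    rw [map_zpow, hζ, iact_infRoot_one_zpow,
      iact_infRoot_mul (M := N) b (Nat.mul_pos hd' hM) hac0 (by rw [hc, ← had]; ring)]
  have hser : coeffMap ι (qExpand E (a * a * c) (infTwist (ζ ^ (b * ((a * c : ℕ) : ℤ))) φ))
      = qExpand ℂ (a * a * c) (infTwist (infRoot b (d' * M)) (coeffMap ι φ)) := by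
    rw [coeffMap_qExpand, iact_coeffMap_infTwist, hroot]
  rw [hser]
  refine h.congr fun τ => ?_
  show f (γ' • infAff a b d' τ) = f (infAff d 0 1 (γ • τ))
  rw [inf_aff_smul_eq hd ha hd' γ γ' h00 h01 h10 h11 τ]

/-- the expansion at `∞` of a shift -/
theorem infExp_shiftFun {d e : ℕ} [NeZero e] (hd : 0 < d) (he : e * M = d * N) {f : ℍ → ℂ}
    {φ : LaurentSeries E} (hφ : InfExp M f (coeffMap ι φ)) :
    InfExp N (shiftFun d f) (coeffMap ι (qExpand E e φ)) := by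
  have hM : 0 < M := Nat.pos_of_ne_zero (NeZero.ne M)
  have hN : 0 < N := Nat.pos_of_ne_zero (NeZero.ne N)
  have h := hφ.comp_infAff (e := e) (N := N) 0 hd one_pos hM hN (by rw [one_mul]; exact he)
  rw [infRoot_zero, infTwist_one] at h
  rw [coeffMap_qExpand]
  exact h

/-- **BD-SHIFT, membership**: `f ∈ iactRing ι M ⟹ f(d·) ∈ iactRing ι N` for `M * d ∣ N`. -/
theorem shiftFun_mem_iactRing (ζ : Eˣ) (hζ : Units.map (ι : E →* ℂ) ζ = infRoot 1 N)
    {d : ℕ} (hd : 0 < d) (hdvd : M * d ∣ N) {f : ℍ → ℂ} (hf : f ∈ iactRing ι M) :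
    shiftFun d f ∈ iactRing ι N := by
  refine ⟨mdiff_shiftFun hd hf.1, fun γ hγ => compSL_shiftFun_of_mem_Gamma hd hdvd hf.2.1 γ hγ,
    fun γ => ?_⟩
  obtain ⟨γ', e, _, k, h⟩ := exists_infExp_compSL_shiftFun (M := M) ζ hζ hd hdvd γ
  obtain ⟨φ, hφ⟩ := hf.2.2 γ'
  exact ⟨_, h f φ hφ⟩

variable (ζ : Eˣ) (hζ : Units.map (ι : E →* ℂ) ζ = infRoot 1 N) {d : ℕ} (hd : 0 < d)
  (hdvd : M * d ∣ N)

/-- The shift `f ↦ f(d·)` as a ring homomorphism `iactRing ι M →+* iactRing ι N`. -/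
def iactShift : iactRing ι M →+* iactRing ι N where
  toFun f := ⟨shiftFun d f, shiftFun_mem_iactRing ζ hζ hd hdvd f.2⟩
  map_one' := rfl
  map_mul' _ _ := rfl
  map_zero' := rfl
  map_add' _ _ := rfl

@[simp] theorem iactShift_coe (f : iactRing ι M) :
    ((iactShift ζ hζ hd hdvd f : iactRing ι N) : ℍ → ℂ) = shiftFun d (f : ℍ → ℂ) := rfl

theorem iactExp_shift {e : ℕ} [NeZero e] (he : e * M = d * N) (f : iactRing ι M) :
    iactExp ι N (iactShift ζ hζ hd hdvd f) = qExpand E e (iactExp ι M f) :=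
  iactExp_eq (infExp_shiftFun hd he (iactExp_spec f))

/-- the exponent `e = d * N / M` of the substitution `X_M(dτ) = X_N(τ)^e` -/
theorem exists_exponent {M N d : ℕ} [NeZero N] (hd : 0 < d) (hdvd : M * d ∣ N) :
    ∃ e : ℕ, 0 < e ∧ e * M = d * N := by
  have hN : 0 < N := Nat.pos_of_ne_zero (NeZero.ne N)
  obtain ⟨c, hc⟩ := hdvd
  have hc0 : 0 < c := by
    rcases Nat.eq_zero_or_pos c with h | h
    · rw [h, mul_zero] at hc; omega
    · exact h
  exact ⟨d * d * c, Nat.mul_pos (Nat.mul_pos hd hd) hc0, by rw [hc]; ring⟩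

theorem iactShift_injective : Function.Injective (iactShift (ι := ι) ζ hζ hd hdvd) := by
  obtain ⟨e, he0, he⟩ := exists_exponent (M := M) (N := N) hd hdvd
  haveI : NeZero e := ⟨he0.ne'⟩
  intro f g h
  apply iactExp_injective (ι := ι) (M := M)
  apply qExpand_injective (R := E) e
  rw [← iactExp_shift ζ hζ hd hdvd he, ← iactExp_shift ζ hζ hd hdvd he, h]

theorem iactShift_C (c : E) : iactShift ζ hζ hd hdvd (iactC ι M c) = iactC ι N c := rfl

/-- compatibility of the shift with the action, ring level, `compSL` form -/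
theorem iactShift_iactComp_of_rel (γ γ' : SL(2, ℤ))
    (h00 : γ' 0 0 = γ 0 0) (h01 : γ' 0 1 = d * γ 0 1) (h10 : γ 1 0 = γ' 1 0 * d)
    (h11 : γ' 1 1 = γ 1 1) (f : iactRing ι M) :
    iactComp ι N γ (iactShift ζ hζ hd hdvd f) = iactShift ζ hζ hd hdvd (iactComp ι M γ' f) :=
  Subtype.ext (compSL_shiftFun_of_rel hd γ γ' h00 h01 h10 h11 f)

/-- **Translates of a shift**, ring level: `γ • shift f` has the expansion of `γ'' • f`, twisted
by a root of unity and expanded. -/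
theorem exists_iactExp_smul_shift (γ : SL(2, ℤ)) :
    ∃ (γ'' : SL(2, ℤ)) (e : ℕ) (_ : NeZero e) (k : ℤ), ∀ f : iactRing ι M,
      iactExp ι N (γ • iactShift ζ hζ hd hdvd f)
        = qExpand E e (infTwist (ζ ^ k) (iactExp ι M (γ'' • f))) := by
  obtain ⟨γ', e, he, k, h⟩ := exists_infExp_compSL_shiftFun (ι := ι) (M := M) ζ hζ hd hdvd γ⁻¹
  refine ⟨γ'⁻¹, e, he, k, fun f => ?_⟩
  apply iactExp_eq
  exact h (f : ℍ → ℂ) (iactExp ι M (γ'⁻¹ • f))
    ((iactExp_spec (γ'⁻¹ • f)).congr fun τ => by rw [iact_smul_apply, inv_inv]; rfl)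

/-- The shift on the fields of fractions. -/
def iactShiftField : IActField ι M →+* IActField ι N :=
  IsFractionRing.lift (K := IActField ι M)
    (g := (algebraMap (iactRing ι N) (IActField ι N)).comp (iactShift ζ hζ hd hdvd))
    ((IsFractionRing.injective (iactRing ι N) (IActField ι N)).comp
      (iactShift_injective ζ hζ hd hdvd))

@[simp] theorem iactShiftField_algebraMap (f : iactRing ι M) :
    iactShiftField ζ hζ hd hdvd (algebraMap (iactRing ι M) (IActField ι M) f)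
      = algebraMap (iactRing ι N) (IActField ι N) (iactShift ζ hζ hd hdvd f) :=
  IsFractionRing.lift_algebraMap _ f

theorem iactShiftField_injective : Function.Injective (iactShiftField (ι := ι) ζ hζ hd hdvd) :=
  (iactShiftField ζ hζ hd hdvd).injective

theorem iactShiftField_C (c : E) : iactShiftField ζ hζ hd hdvd (iactFC ι M c) = iactFC ι N c := by
  rw [iactFC, RingHom.comp_apply, iactShiftField_algebraMap, iactShift_C]
  rfl

/-- **Expansion of the shift**: `X_M(dτ) = X_N(τ)^e`, `e = d N / M`. -/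
theorem iactFieldExp_shift {e : ℕ} [NeZero e] (he : e * M = d * N) (x : IActField ι M) :
    iactFieldExp ι N (iactShiftField ζ hζ hd hdvd x) = qExpand E e (iactFieldExp ι M x) := by
  obtain ⟨a, b, hb, rfl⟩ := IsFractionRing.div_surjective (A := iactRing ι M) x
  rw [map_div₀, map_div₀, map_div₀, map_div₀, iactShiftField_algebraMap,
    iactShiftField_algebraMap, iactFieldExp_algebraMap, iactFieldExp_algebraMap,
    iactFieldExp_algebraMap, iactFieldExp_algebraMap, iactExp_shift ζ hζ hd hdvd he,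
    iactExp_shift ζ hζ hd hdvd he]

/-- **Translates of a shift**, field level. -/
theorem exists_iactFieldExp_smul_shift (γ : SL(2, ℤ)) :
    ∃ (γ'' : SL(2, ℤ)) (e : ℕ) (_ : NeZero e) (k : ℤ), ∀ x : IActField ι M,
      iactFieldExp ι N (γ • iactShiftField ζ hζ hd hdvd x)
        = qExpand E e (infTwist (ζ ^ k) (iactFieldExp ι M (γ'' • x))) := by
  obtain ⟨γ'', e, he, k, h⟩ := exists_iactExp_smul_shift (ι := ι) (M := M) ζ hζ hd hdvd γ
  refine ⟨γ'', e, he, k, fun x => ?_⟩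
  obtain ⟨a, b, hb, rfl⟩ := IsFractionRing.div_surjective (A := iactRing ι M) x
  rw [map_div₀, smul_div₀', smul_div₀', iactShiftField_algebraMap, iactShiftField_algebraMap,
    iact_smul_algebraMap, iact_smul_algebraMap, iact_smul_algebraMap, iact_smul_algebraMap,
    map_div₀, map_div₀, map_div₀, map_div₀, iactFieldExp_algebraMap, iactFieldExp_algebraMap,
    iactFieldExp_algebraMap, iactFieldExp_algebraMap, h a, h b]

/-- compatibility of the shift with the action (`γ' = diag(d,1) γ diag(d,1)⁻¹`), field level -/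
theorem smul_iactShiftField_of_rel (γ γ' : SL(2, ℤ))
    (h00 : γ' 0 0 = γ 0 0) (h01 : γ' 0 1 = d * γ 0 1) (h10 : γ 1 0 = γ' 1 0 * d)
    (h11 : γ' 1 1 = γ 1 1) (x : IActField ι M) :
    γ • iactShiftField ζ hζ hd hdvd x = iactShiftField ζ hζ hd hdvd (γ' • x) := by
  have hinv : ∀ f : iactRing ι M,
      γ • iactShift ζ hζ hd hdvd f = iactShift ζ hζ hd hdvd (γ' • f) := by
    intro f
    rw [iact_smul_def, iact_smul_def]
    exact iactShift_iactComp_of_rel ζ hζ hd hdvd γ⁻¹ γ'⁻¹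
      (by rw [sl_inv_00, sl_inv_00, h11]) (by rw [sl_inv_01, sl_inv_01, h01]; ring)
      (by rw [sl_inv_10, sl_inv_10, h10]; ring) (by rw [sl_inv_11, sl_inv_11, h00]) f
  obtain ⟨a, b, hb, rfl⟩ := IsFractionRing.div_surjective (A := iactRing ι M) x
  rw [map_div₀, smul_div₀', smul_div₀', iactShiftField_algebraMap, iactShiftField_algebraMap,
    iact_smul_algebraMap, iact_smul_algebraMap, iact_smul_algebraMap, iact_smul_algebraMap,
    map_div₀, iactShiftField_algebraMap, iactShiftField_algebraMap, hinv a, hinv b]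

end Exp

/-! ### bounded denominators -/

section Bd

variable {E : Type*} [Field E] [CharZero E] {ι : E →+* ℂ} {M N : ℕ} [NeZero M] [NeZero N]
  (𝒪 : ValuationSubring E) {w₀ : E}

theorem isInt_qExpand {e : ℕ} [NeZero e] {s : LaurentSeries E} (hs : IsInt 𝒪 s) :
    IsInt 𝒪 (qExpand E e s) := by
  intro k
  by_cases hk : (e : ℤ) ∣ k
  · obtain ⟨m, rfl⟩ := hk
    rw [qExpand_coeff_mul]
    exact hs m
  · rw [qExpand_coeff_of_not_dvd _ _ hk]
    exact 𝒪.zero_mem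

theorem isInt_infTwist {u : Eˣ} (hu : 𝒪.valuation (u : E) = 1) {s : LaurentSeries E}
    (hs : IsInt 𝒪 s) : IsInt 𝒪 (infTwist u s) := by
  rw [isInt_iff] at hs ⊢
  intro k
  rw [infTwist_coeff, map_mul, Units.val_zpow_eq_zpow_val, map_zpow₀, hu, one_zpow, mul_one]
  exact hs k

variable (ζ : Eˣ) (hζ : Units.map (ι : E →* ℂ) ζ = infRoot 1 N) {d : ℕ} (hd : 0 < d)
  (hdvd : M * d ∣ N)

include hζ in
theorem valuation_zeta_zpow (k : ℤ) : 𝒪.valuation (((ζ ^ k : Eˣ)) : E) = 1 := by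
  have h1 : 𝒪.valuation ((ζ⁻¹ : Eˣ) : E) = 1 := iact_valuation_zeta 𝒪 ζ hζ
  have h2 : 𝒪.valuation (ζ : E) = 1 := by
    rw [Units.val_inv_eq_inv_val, map_inv₀, inv_eq_one] at h1
    exact h1
  rw [Units.val_zpow_eq_zpow_val, map_zpow₀, h2, one_zpow]

/-- transport of bounded denominators along one translate of the shift -/
theorem isBd_smul_shift_of_formula (γ γ'' : SL(2, ℤ)) (e : ℕ) [NeZero e] (k : ℤ)
    (h : ∀ x : IActField ι M, iactFieldExp ι N (γ • iactShiftField ζ hζ hd hdvd x)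
      = qExpand E e (infTwist (ζ ^ k) (iactFieldExp ι M (γ'' • x))))
    {U : IActField ι M} (hU : IsBd 𝒪 (iactFieldExp ι M) (iactFC ι M w₀) (γ'' • U)) :
    IsBd 𝒪 (iactFieldExp ι N) (iactFC ι N w₀) (γ • iactShiftField ζ hζ hd hdvd U) := by
  obtain ⟨n, hn⟩ := hU
  refine ⟨n, ?_⟩
  have e1 : iactFieldExp ι N (γ • iactShiftField ζ hζ hd hdvd U * iactFC ι N w₀ ^ n)
      = qExpand E e (infTwist (ζ ^ k) (iactFieldExp ι M (γ'' • U * iactFC ι M w₀ ^ n))) := by
    rw [map_mul, map_pow, h U, iactFieldExp_C, map_mul (iactFieldExp ι M), map_pow,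
      iactFieldExp_C, map_mul (infTwist (ζ ^ k)), map_pow (infTwist (ζ ^ k)), infTwist_C,
      map_mul (qExpand E e), map_pow (qExpand E e), qExpand_C]
  rw [e1]
  exact isInt_qExpand 𝒪 (isInt_infTwist 𝒪 (valuation_zeta_zpow 𝒪 ζ hζ k) hn)

/-- **BD-SHIFT** (elements): if every `SL(2,ℤ)`-translate of `x` has bounded denominators at
level `M`, then every translate of `x(d·)` has bounded denominators at level `N`. -/
theorem isBd_smul_iactShiftField {x : IActField ι M}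
    (hx : ∀ γ : SL(2, ℤ), IsBd 𝒪 (iactFieldExp ι M) (iactFC ι M w₀) (γ • x)) (γ : SL(2, ℤ)) :
    IsBd 𝒪 (iactFieldExp ι N) (iactFC ι N w₀) (γ • iactShiftField ζ hζ hd hdvd x) := by
  obtain ⟨γ'', e, _, k, h⟩ := exists_iactFieldExp_smul_shift (ι := ι) (M := M) ζ hζ hd hdvd γ
  exact isBd_smul_shift_of_formula 𝒪 ζ hζ hd hdvd γ γ'' e k h (hx γ'')

/-- the same for quotients of elements with bounded denominators -/
theorem hasBd_smul_iactShiftField {x : IActField ι M}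
    (hx : ∀ γ : SL(2, ℤ), HasBd 𝒪 (iactFieldExp ι M) (iactFC ι M w₀) (γ • x)) (γ : SL(2, ℤ)) :
    HasBd 𝒪 (iactFieldExp ι N) (iactFC ι N w₀) (γ • iactShiftField ζ hζ hd hdvd x) := by
  obtain ⟨γ'', e, _, k, h⟩ := exists_iactFieldExp_smul_shift (ι := ι) (M := M) ζ hζ hd hdvd γ
  obtain ⟨U₁, U₂, hU₂, h1, h2, hq⟩ := hx γ''
  have hb : ∀ U : IActField ι M, IsBd 𝒪 (iactFieldExp ι M) (iactFC ι M w₀) U →
      IsBd 𝒪 (iactFieldExp ι N) (iactFC ι N w₀)
        (γ • iactShiftField ζ hζ hd hdvd (γ''⁻¹ • U)) := by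
    intro U hU
    refine isBd_smul_shift_of_formula 𝒪 ζ hζ hd hdvd γ γ'' e k h ?_
    rw [smul_inv_smul]
    exact hU
  refine ⟨_, _, ?_, hb U₁ h1, hb U₂ h2, ?_⟩
  · intro h0
    apply hU₂
    have h3 : iactShiftField ζ hζ hd hdvd (γ''⁻¹ • U₂) = 0 := (smul_eq_zero_iff_eq γ).mp h0
    have h4 : γ''⁻¹ • U₂ = 0 := by
      apply iactShiftField_injective (ι := ι) ζ hζ hd hdvd
      rw [h3, map_zero]
    exact (smul_eq_zero_iff_eq γ''⁻¹).mp h4
  · rw [← smul_mul', ← map_mul]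
    congr 2
    rw [← hq, smul_mul', inv_smul_smul]

/-- **BD-SHIFT** (fields): the shift maps `H856.iactBd` at level `M` into `iactBd` at level
`N`. -/
theorem iactShiftField_mem_iactBd (hd𝒪 : IsDiscrete 𝒪 w₀) {x : IActField ι M}
    (hx : x ∈ iactBd (ι := ι) (M := M) 𝒪 hd𝒪) :
    iactShiftField ζ hζ hd hdvd x ∈ iactBd (ι := ι) (M := N) 𝒪 hd𝒪 := by
  rintro g ⟨γ, rfl⟩
  rw [iactRho_apply]
  exact hasBd_smul_iactShiftField 𝒪 ζ hζ hd hdvd (fun γ' => hx _ ⟨γ', rfl⟩) γ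

end Bd

end Fermat.Agent.S48.H141

end
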